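import Mathlib
import Fermat.Agent.LT.T7.H893.SupplyConstrSpec2

/-!
# Row LT, tower T7, node T7.L2.1.H2b `ProdMtCb` (helper51, SPARE CUT): Spec

OFF-MAIN.  Definitions and frozen Props only (the proved tops are in `ProdMtTop.lean`).  No
hole, nothing assumed.  ADDITIVE: all names are new and end in `51`.  Vocabulary:
`T7/H893/SupplyConstrSpec2.lean` (helper893, fifth cut v2, form of record), byte-identical copy.

    prodMtCb_of51 : GlobProdC51 K K' → LocProdC51 K K' → UnramC51 K K' → LevelAtC51 K K'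
        → LevelUniqC51 → ∀ κ, (∀ D μc T₀ n m, κ D μc T₀ n m ≠ 0) → H893.ProdMtCb K K' κ
    locProdC_of51 : RegFinC51 → RegArchC51 → InertSphC51 → SplitOrbC51 → SplitSphC51
        → ArchProdC51 → LocProdC51 K K'

## The cut

The members of the families are `E.up = Φ₁ X ⋆ lsum Hg (regL (o 0) z' H' k j φ₂)` and
`E.down = F₁ X ⋆ regL u z H k j f₂`; the four base functions are averages of pure tensors with
the local shapes `LocA893`, `LocB893b` (hypothesis `IsDecomp893b`).

* **`LocProd51`** = THE LOCAL SHAPE OF THE PRODUCTS: the components of a pure tensor of the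
  product family in terms of components of the two pairs:
  - bad places (`v ∈ T₀`, `v ≠ u`): upstairs the double coset functions of `g`, downstairs the
    partner `f₂ v` (the first pair has unit components there);
  - the orbit: upstairs `regLoc51 (o 0) z' H' k j 1_I` at `o 0` and `1_I` at `o i`,
    `0 < i < ℓ`; downstairs `t · regLoc51 u z H k j 1_I` (`t ≠ 0` a normalising constant);
  - outside the level: the convolution products (`vol GL₂(𝒪) = 1`) of the spherical components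
    (unit components where a pair has no component);
  - at infinity: the convolution products for `μc`.
* **`GlobProdC51`** (NODE, global: Haar splitting, Fubini, cosets): there is a constant `c ≠ 0`
  (the quotient of the normalising constants of the two Haar measures) such that the members are
  averages of pure tensors of shape `LocProd51 … t` with the constant `a c / t` downstairs.
* **`LocProdC51`** (NODE, local): there is `t ≠ 0` (`= [I : U(m_u)]^(ℓ-1)`) such that the shape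
  `LocProd51 … t` implies the local hypotheses `LocHyp893` of the matching theorem.  It is cut
  place by place and clause by clause (second top).
* `UnramC51`, `LevelAtC51`, `LevelUniqC51`: bookkeeping on levels.

FALSITY CHECKS (helper51).  (a) Constants: upstairs the relation has no constant, so the
normalising constant of `conv` upstairs goes into the measure of the parameter space; downstairs
the constant is `a · c_G / c'_G`, divided by `t` when the component at `u` is multiplied by `t`.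
All constants depend on `(B, 𝔫, μc)` only: the levels are `0` outside `T₀`, so the local Haar
measures with `vol U(n_w) = 1` do not depend on `T`.  (b) At the places of the level the first
pair has unit components and the components of the second pair are bi-invariant under the
(smaller) groups of the level `𝔫`: the product has the components of the operated second pair.
(c) The sum over `Hg` of the translates of the unit components at the bad places is the product
of the double coset functions (`g` is trivial outside the bad places; the other components are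
invariant).  (d) `regLoc51` is defined with the coset systems of the pre-data; it does not depend
on them (sums over `I t I / I` of translates of left `I`-invariant functions), so upstairs and
downstairs agree under the identifications at the split place `u`.  (e) The inert clause at `u`
is void (`ℓ ≥ 3` places over `u`).
-/

set_option autoImplicit false

open AutomorphicForm IsDedekindDomain NumberField MeasureTheory
open scoped ComplexConjugate

noncomputable section

namespace Fermat.Agent.LT.T7.P51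

open Fermat.Agent.LT.H556 Fermat.Agent.LT.H556.A0 Fermat.Agent.LT.T7
open Fermat.Agent.LT.T7.H305 Fermat.Agent.LT.T7.H893

attribute [local instance] Fermat.Agent.LT.T5.instMeasurableSpaceG

/-! ## 1. The local operators -/

section LocalOps

variable {K : Type} [Field K] [NumberField K]

/-- The local form of `H893.iwL`: the normalised sum of the left translates by the components
at `w` of the elements of `H`. -/
def iwLoc51 (w : HeightOneSpectrum (𝓞 K)) (H : Finset (G K))
    (φ : GL (Fin 2) (w.adicCompletion K) → ℂ) : GL (Fin 2) (w.adicCompletion K) → ℂ :=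
  fun y => ((Real.sqrt (Ideal.absNorm w.asIdeal : ℝ) : ℝ) : ℂ)⁻¹
    * ∑ h ∈ H, φ ((finGL305 w h)⁻¹ * y)

/-- The local form of `H893.regL`: `regLoc51 w z H k j φ = ltr (z_w ^ k) ((iwLoc51 w H)^[j] φ)`. -/
def regLoc51 (w : HeightOneSpectrum (𝓞 K)) (z : G K) (H : Finset (G K)) (k : ℤ) (j : ℕ)
    (φ : GL (Fin 2) (w.adicCompletion K) → ℂ) : GL (Fin 2) (w.adicCompletion K) → ℂ :=
  fun y => ((iwLoc51 w H)^[j] φ) ((finGL305 w z ^ k)⁻¹ * y)

end LocalOps

/-! ## 2. The clauses of `LocHyp893` at one place -/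

section Clauses

variable {K K' : Type} [Field K] [NumberField K] [Field K'] [NumberField K'] [Algebra K K']

/-- The body of the clause `inert` of `H893.LocHyp893` at the place `v` (verbatim). -/
def InertAt51 (D : CompData K K')
    (n : HeightOneSpectrum (𝓞 K') → ℕ) (m : HeightOneSpectrum (𝓞 K) → ℕ)
    (φ₀ : ∀ w : HeightOneSpectrum (𝓞 K'), GL (Fin 2) (w.adicCompletion K') → ℂ)
    (f₀ : ∀ v : HeightOneSpectrum (𝓞 K), GL (Fin 2) (v.adicCompletion K) → ℂ)
    (v : HeightOneSpectrum (𝓞 K)) : Prop :=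
  ∀ w : HeightOneSpectrum (𝓞 K'), PlaceOver K K' v w →
    (∀ w' : HeightOneSpectrum (𝓞 K'), PlaceOver K K' v w' → w' = w) →
    ∀ (e : ℕ) (i : v.adicCompletion K →+* w.adicCompletion K')
      (sw : w.adicCompletion K' ≃+* w.adicCompletion K'),
      (∀ x : K, i (algebraMap K (v.adicCompletion K) x)
        = algebraMap K' (w.adicCompletion K') (algebraMap K K' x)) →
      (∀ y : K', sw (algebraMap K' (w.adicCompletion K') y)
        = algebraMap K' (w.adicCompletion K') (D.s.σ y)) →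
      T6.IsLocalExt (v.adicCompletion K) (w.adicCompletion K') D.l e i sw →
      (∀ (δ : GL (Fin 2) (w.adicCompletion K')) (γ : GL (Fin 2) (v.adicCompletion K))
          (c c' : ℂ), T6.IsReg γ →
          IsConj (T6.twNorm sw D.l δ) (Matrix.GeneralLinearGroup.map i γ) →
          T6.IsTwOrbSum sw (n w) (φ₀ w) δ c → T6.IsOrbSum (m v) (f₀ v) γ c' → c = c') ∧
        ∀ (γ : GL (Fin 2) (v.adicCompletion K)) (c' : ℂ), T6.IsReg γ →
          ¬ T6.IsNormFrom D.l i sw γ → T6.IsOrbSum (m v) (f₀ v) γ c' → c' = 0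

/-- The body of the clause `split` of `H893.LocHyp893` at the place `v` (verbatim). -/
def SplitAt51 (D : CompData K K')
    (n : HeightOneSpectrum (𝓞 K') → ℕ) (m : HeightOneSpectrum (𝓞 K) → ℕ)
    (φ₀ : ∀ w : HeightOneSpectrum (𝓞 K'), GL (Fin 2) (w.adicCompletion K') → ℂ)
    (f₀ : ∀ v : HeightOneSpectrum (𝓞 K), GL (Fin 2) (v.adicCompletion K) → ℂ)
    (v : HeightOneSpectrum (𝓞 K)) : Prop :=
  (∃ w₁ w₂ : HeightOneSpectrum (𝓞 K'),
      PlaceOver K K' v w₁ ∧ PlaceOver K K' v w₂ ∧ w₁ ≠ w₂) →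
    ∃ (w : ℕ → HeightOneSpectrum (𝓞 K'))
      (i : ∀ j : ℕ, v.adicCompletion K ≃+* (w j).adicCompletion K'),
      (∀ j : ℕ, PlaceOver K K' v (w j)) ∧ (∀ j : ℕ, T5.PlaceRel D.s (w (j + 1)) (w j)) ∧
      (∀ j : ℕ, 0 < j → j < D.l → w j ≠ w 0) ∧
      (∀ (j : ℕ) (x : K), i j (algebraMap K (v.adicCompletion K) x)
        = algebraMap K' ((w j).adicCompletion K') (algebraMap K K' x)) ∧
      (∀ (j : ℕ) (x : v.adicCompletion K), Valued.v (i j x) = Valued.v x) ∧
      (∀ j : ℕ, n (w j) = m v) ∧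
        T6.IsConvProd (T6.InU (m v)) D.l
          (fun j g => φ₀ (w j)
            (Matrix.GeneralLinearGroup.map ((i j : v.adicCompletion K ≃+* _) :
              v.adicCompletion K →+* (w j).adicCompletion K') g))
          (f₀ v)

/-- The clauses `inv_up`, `inv_down` of `H893.LocHyp893` at the place `v`. -/
def RegAt51 (n : HeightOneSpectrum (𝓞 K') → ℕ) (m : HeightOneSpectrum (𝓞 K) → ℕ)
    (φ₀ : ∀ w : HeightOneSpectrum (𝓞 K'), GL (Fin 2) (w.adicCompletion K') → ℂ)
    (f₀ : ∀ v : HeightOneSpectrum (𝓞 K), GL (Fin 2) (v.adicCompletion K) → ℂ)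
    (v : HeightOneSpectrum (𝓞 K)) : Prop :=
  (∀ w : HeightOneSpectrum (𝓞 K'), PlaceOver K K' v w →
      T6.IsBiInv (T6.InU (n w)) (φ₀ w) ∧ T6.HasFinSupp (T6.InU (n w)) (φ₀ w)) ∧
    T6.IsBiInv (T6.InU (m v)) (f₀ v) ∧ T6.HasFinSupp (T6.InU (m v)) (f₀ v)

/-- The clauses `arch_up`, `arch_down` of `H893.LocHyp893`. -/
def RegArch51 (Φ : InfinitePlace K' → GL (Fin 2) ℂ → ℂ)
    (F : InfinitePlace K → GL (Fin 2) ℂ → ℂ) : Prop :=
  (∀ w : InfinitePlace K', Continuous (Φ w) ∧ HasCompactSupport (Φ w) ∧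
      ∀ g : GL (Fin 2) ℂ, Φ w (conjGL305 g) = Φ w g) ∧
    ∀ v : InfinitePlace K, Continuous (F v) ∧ HasCompactSupport (F v) ∧
      ∀ g : GL (Fin 2) ℂ, F v (conjGL305 g) = F v g

/-- The clause `arch` of `H893.LocHyp893`. -/
def ArchAt51 (D : CompData K K') (μc : @Measure (GL (Fin 2) ℂ) (borel _))
    (Φ : InfinitePlace K' → GL (Fin 2) ℂ → ℂ)
    (F : InfinitePlace K → GL (Fin 2) ℂ → ℂ) : Prop :=
  ∀ (v : InfinitePlace K) (w : ℕ → InfinitePlace K'),
    (∀ j : ℕ, (w j).comap (algebraMap K K') = v) →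
    (∀ j j' : ℕ, j < D.l → j' < D.l → w j = w j' → j = j') →
    F v = convL305 μc (fun j => Φ (w j)) (D.l - 1)

end Clauses

/-! ## 3. The context and the local shape of the products -/

section Shape

variable {K K' : Type} [Field K] [NumberField K] [Field K'] [NumberField K'] [Algebra K K']

/-- **THE CONTEXT** of the node `H893.ProdMtCb`: the hypotheses on `(ℓ, Φ, B, g, 𝔫, μc)` and
the local data `(T₀, n, n₀, m)` of the level. -/
structure IsCtx51 (ℓ : ℕ) (Φ : HeckeEigensystem K' ℂ) (B : L2Base K K') (g : G K')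
    (𝔫 : Ideal (𝓞 K)) (μc : @Measure (GL (Fin 2) ℂ) (borel _))
    (T₀ : Finset (HeightOneSpectrum (𝓞 K)))
    (n n₀ : HeightOneSpectrum (𝓞 K') → ℕ) (m : HeightOneSpectrum (𝓞 K) → ℕ) : Prop where
  cyc : IsCycExt K K' ℓ
  ne2 : ℓ ≠ 2
  tc : TotCplx K
  base : IsL2Base ℓ Φ B
  ram : B.RamIn
  bad : B.IsBad g
  haar : @Measure.IsHaarMeasure _ _ _ (borel _) μc
  mem_T₀ : ∀ v : HeightOneSpectrum (𝓞 K), v ∈ T₀ ↔ v.asIdeal ∣ 𝔫
  lev_m : IsLevelOf893 𝔫 m
  lev_n : IsLevelOf893 (upI (K' := K') 𝔫) n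
  lev_n₀ : IsLevelOf893 B.𝔑₀ n₀

/-- **THE LEVEL AND THE COSET SYSTEMS** (the fields of `H893.IsL2PreOp` which are used by the
local calculus). -/
structure IsSys51 (B : L2Base K K') (𝔫 : Ideal (𝓞 K))
    (H' : Finset (G K')) (z' : G K') (H : Finset (G K)) (z : G K) : Prop where
  level_ne : 𝔫 ≠ ⊥
  level_g : upI (K' := K') 𝔫 ≤ B.𝔑₀
  mem_S'_g : ∀ w : HeightOneSpectrum (𝓞 K'), w ∈ B.S' ↔ w.asIdeal ∣ upI (K' := K') 𝔫
  u_level : B.u.asIdeal ∣ 𝔫
  sys' : IsIwCosetSystem (B.o 0) H'
  unif' : IsScalarUniformizerAt (B.o 0) z'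
  sys : IsIwCosetSystem B.u H
  unif : IsScalarUniformizerAt B.u z

open Classical in
/-- **THE LOCAL SHAPE OF THE PRODUCTS.**  `(φ₀, Φ, f₀, F)` are the components of the product of
a pure tensor of shape `LocA893` (first pair) with the operated pure tensor of shape `LocB893b`
(second pair); `t` is the normalising constant of the component downstairs at `u`. -/
def LocProd51 (B : L2Base K K') (g : G K') (𝔫 : Ideal (𝓞 K))
    (μc : @Measure (GL (Fin 2) ℂ) (borel _)) (T₀ : Finset (HeightOneSpectrum (𝓞 K)))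
    (n n₀ : HeightOneSpectrum (𝓞 K') → ℕ) (m : HeightOneSpectrum (𝓞 K) → ℕ)
    (H' : Finset (G K')) (z' : G K') (H : Finset (G K)) (z : G K) (t : ℂ) (k : ℤ) (j : ℕ) :
    LocCond K K' :=
  fun T φ₀ Φ f₀ F =>
    ∃ (T₁ T₂ : Finset (HeightOneSpectrum (𝓞 K)))
      (φ₁ : ∀ w : HeightOneSpectrum (𝓞 K'), GL (Fin 2) (w.adicCompletion K') → ℂ)
      (Φ₁ : InfinitePlace K' → GL (Fin 2) ℂ → ℂ)
      (f₁ : ∀ v : HeightOneSpectrum (𝓞 K), GL (Fin 2) (v.adicCompletion K) → ℂ)
      (F₁ : InfinitePlace K → GL (Fin 2) ℂ → ℂ)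
      (φ₂ : ∀ w : HeightOneSpectrum (𝓞 K'), GL (Fin 2) (w.adicCompletion K') → ℂ)
      (Φ₂ : InfinitePlace K' → GL (Fin 2) ℂ → ℂ)
      (f₂ : ∀ v : HeightOneSpectrum (𝓞 K), GL (Fin 2) (v.adicCompletion K) → ℂ)
      (F₂ : InfinitePlace K → GL (Fin 2) ℂ → ℂ),
      T = T₁ ∪ T₂ ∧ T₀ ⊆ T₁ ∧ T₀ ⊆ T₂ ∧
      LocA893 B 𝔫 μc T₀ n m T₁ φ₁ Φ₁ f₁ F₁ ∧
      LocB893b B g 𝔫 μc T₀ n n₀ m T₂ φ₂ Φ₂ f₂ F₂ ∧
      -- the bad places
      (∀ v ∈ T₀, v ≠ B.u → f₀ v = f₂ v ∧
        ∀ w : HeightOneSpectrum (𝓞 K'), PlaceOver K K' v w →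
          φ₀ w = dblFn893 (n₀ w) (finGL305 w g)) ∧
      -- the orbit
      (f₀ B.u = fun x => t * regLoc51 B.u z H k j iwFn893 x) ∧
      φ₀ (B.o 0) = regLoc51 (B.o 0) z' H' k j iwFn893 ∧
      (∀ i : ℕ, 0 < i → i < B.l → φ₀ (B.o i) = iwFn893) ∧
      -- outside the level
      (∀ v ∈ T, v ∉ T₀ →
        T6.IsConv (T6.InU 0) (if v ∈ T₁ then f₁ v else unitFn893 0)
          (if v ∈ T₂ then f₂ v else unitFn893 0) (f₀ v) ∧
        ∀ w : HeightOneSpectrum (𝓞 K'), PlaceOver K K' v w →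
          T6.IsConv (T6.InU 0) (if v ∈ T₁ then φ₁ w else unitFn893 0)
            (if v ∈ T₂ then φ₂ w else unitFn893 0) (φ₀ w)) ∧
      -- at infinity
      (∀ w : InfinitePlace K', Φ w = @T6.convInt _ _ (borel _) μc (Φ₁ w) (Φ₂ w)) ∧
      ∀ v : InfinitePlace K, F v = @T6.convInt _ _ (borel _) μc (F₁ v) (F₂ v)

end Shape

/-! ## 4. The nodes and the leaves -/

section Nodes

variable (K K' : Type) [Field K] [NumberField K] [Field K'] [NumberField K'] [Algebra K K']

/-- **NODE P.G = GLOB-PROD (global: Haar splitting, Fubini, coset systems).**  In the context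
there is a constant `c ≠ 0` such that for all `t, a ≠ 0` and all pre-data of level `𝔫` with the
operator properties whose base functions are averages of pure tensors of the shapes `LocA893`
(constant `1`) and `LocB893b` (constant `a`), the members `E.up B X k j`, `E.down B X k j` are
averages of pure tensors of the shape `LocProd51 … t k j` with the constant `a c / t`.
Proof.  `conv` of two averages is the average over the product of the parameter spaces of the
`conv`s (Fubini; joint continuity, one compact support); `lsum Hg`, `regL` commute with the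
averages; `lsum Hg (regL …)` of a pure tensor with unit components at the bad places and Iwahori
components along the orbit is the pure tensor with the double coset functions of `g` and
`regLoc51` at `o 0` (the elements of the coset systems are trivial at the other places, resp.
in the groups under which the other components are invariant); `conv` of two pure tensors is a
constant times the pure tensor of the local convolutions (`H305.HaarSplitC305`, closed; kit of
helper947 `T7/H947/{ProdFormula,PureGlue}.lean`); the constant upstairs is put into the measure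
of the parameter space; unit times a bi-invariant function is the function; every member is a
test function (`conv` of test functions, left translates). -/
def GlobProdC51 : Prop :=
  ∀ (ℓ : ℕ) (Φ : HeckeEigensystem K' ℂ) (B : L2Base K K') (g : G K') (𝔫 : Ideal (𝓞 K))
    (μc : @Measure (GL (Fin 2) ℂ) (borel _)) (T₀ : Finset (HeightOneSpectrum (𝓞 K)))
    (n n₀ : HeightOneSpectrum (𝓞 K') → ℕ) (m : HeightOneSpectrum (𝓞 K) → ℕ),
    IsCtx51 ℓ Φ B g 𝔫 μc T₀ n n₀ m →
    ∃ c : ℂ, c ≠ 0 ∧ ∀ t a : ℂ, t ≠ 0 → a ≠ 0 →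
      ∀ E : L2Pre K K', E.𝔫 = 𝔫 → IsL2PreOp ℓ Φ B g E →
        (∀ X : List (Gen K'), (∀ x ∈ X, x.Out B.S') →
          IsAvgPure (upI (K' := K') 𝔫) 𝔫 T₀ (LocA893 B 𝔫 μc T₀ n m) 1 (E.Φ₁ X) (E.F₁ X)) →
        IsAvgPure (upI (K' := K') 𝔫) 𝔫 T₀ (LocB893b B g 𝔫 μc T₀ n n₀ m) a E.φ₂ E.f₂ →
        ∀ (X : List (Gen K')) (k : ℤ) (j : ℕ), (∀ x ∈ X, x.Out B.S') →
          IsAvgPure (upI (K' := K') 𝔫) 𝔫 T₀
            (LocProd51 B g 𝔫 μc T₀ n n₀ m E.H' E.z' E.H E.z t k j) (a * c / t)
            (E.up B X k j) (E.down B X k j)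

/-- **NODE P.L = LOC-PROD (local).**  In the context there is `t ≠ 0` such that the shape
`LocProd51 … t k j` implies the local hypotheses `H893.LocHyp893` of the matching theorem. -/
def LocProdC51 : Prop :=
  ∀ (ℓ : ℕ) (Φ : HeckeEigensystem K' ℂ) (B : L2Base K K') (g : G K') (𝔫 : Ideal (𝓞 K))
    (μc : @Measure (GL (Fin 2) ℂ) (borel _)) (T₀ : Finset (HeightOneSpectrum (𝓞 K)))
    (n n₀ : HeightOneSpectrum (𝓞 K') → ℕ) (m : HeightOneSpectrum (𝓞 K) → ℕ),
    IsCtx51 ℓ Φ B g 𝔫 μc T₀ n n₀ m →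
    ∃ t : ℂ, t ≠ 0 ∧
      ∀ (H' : Finset (G K')) (z' : G K') (H : Finset (G K)) (z : G K),
        IsSys51 B 𝔫 H' z' H z →
        ∀ (k : ℤ) (j : ℕ) (T : Finset (HeightOneSpectrum (𝓞 K)))
          (φ₀ : ∀ w : HeightOneSpectrum (𝓞 K'), GL (Fin 2) (w.adicCompletion K') → ℂ)
          (Φ' : InfinitePlace K' → GL (Fin 2) ℂ → ℂ)
          (f₀ : ∀ v : HeightOneSpectrum (𝓞 K), GL (Fin 2) (v.adicCompletion K) → ℂ)
          (F : InfinitePlace K → GL (Fin 2) ℂ → ℂ),
          LocProd51 B g 𝔫 μc T₀ n n₀ m H' z' H z t k j T φ₀ Φ' f₀ F →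
          LocHyp893 (B.comp 𝔫) μc T n m φ₀ Φ' f₀ F

/-- **LEAF P.1 = UNRAM.**  The places outside the level are unramified in `K'` (`RamIn`,
`mem_S'_g`: a place of `K'` which divides `𝔫 𝒪_{K'}` lies over a place which divides `𝔫`). -/
def UnramC51 : Prop :=
  ∀ (B : L2Base K K') (𝔫 : Ideal (𝓞 K)) (T₀ : Finset (HeightOneSpectrum (𝓞 K))),
    B.RamIn → (∀ w : HeightOneSpectrum (𝓞 K'), w ∈ B.S' ↔ w.asIdeal ∣ upI (K' := K') 𝔫) →
    (∀ v : HeightOneSpectrum (𝓞 K), v ∈ T₀ ↔ v.asIdeal ∣ 𝔫) → UnramOut305 (K' := K') T₀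

/-- **LEAF P.2 = LEVEL-AT.**  The exponents of the levels `𝔫`, `𝔫 𝒪_{K'}` vanish outside the
places dividing `𝔫`. -/
def LevelAtC51 : Prop :=
  ∀ (𝔫 : Ideal (𝓞 K)) (T₀ : Finset (HeightOneSpectrum (𝓞 K)))
    (n : HeightOneSpectrum (𝓞 K') → ℕ) (m : HeightOneSpectrum (𝓞 K) → ℕ),
    (∀ v : HeightOneSpectrum (𝓞 K), v ∈ T₀ ↔ v.asIdeal ∣ 𝔫) →
    IsLevelOf893 𝔫 m → IsLevelOf893 (upI (K' := K') 𝔫) n → IsLevelAt305 T₀ n m

/-- **LEAF P.3 = LEVEL-UNIQ** (one field).  The exponents of a level are unique. -/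
def LevelUniqC51 : Prop :=
  ∀ (F : Type) [Field F] [NumberField F] (𝔫 : Ideal (𝓞 F))
    (m m' : HeightOneSpectrum (𝓞 F) → ℕ),
    IsLevelOf893 𝔫 m → IsLevelOf893 𝔫 m' → m = m'

/-! ### The leaves of `LocProdC51` -/

/-- The common hypotheses of the local leaves. -/
def IsLoc51 (ℓ : ℕ) (Φ : HeckeEigensystem K' ℂ) (B : L2Base K K') (g : G K')
    (𝔫 : Ideal (𝓞 K)) (μc : @Measure (GL (Fin 2) ℂ) (borel _))
    (T₀ : Finset (HeightOneSpectrum (𝓞 K)))
    (n n₀ : HeightOneSpectrum (𝓞 K') → ℕ) (m : HeightOneSpectrum (𝓞 K) → ℕ)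
    (H' : Finset (G K')) (z' : G K') (H : Finset (G K)) (z : G K) (t : ℂ) (k : ℤ) (j : ℕ)
    (T : Finset (HeightOneSpectrum (𝓞 K)))
    (φ₀ : ∀ w : HeightOneSpectrum (𝓞 K'), GL (Fin 2) (w.adicCompletion K') → ℂ)
    (Φ' : InfinitePlace K' → GL (Fin 2) ℂ → ℂ)
    (f₀ : ∀ v : HeightOneSpectrum (𝓞 K), GL (Fin 2) (v.adicCompletion K) → ℂ)
    (F : InfinitePlace K → GL (Fin 2) ℂ → ℂ) : Prop :=
  IsCtx51 ℓ Φ B g 𝔫 μc T₀ n n₀ m ∧ IsSys51 B 𝔫 H' z' H z ∧ t ≠ 0 ∧
    LocProd51 B g 𝔫 μc T₀ n n₀ m H' z' H z t k j T φ₀ Φ' f₀ F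

/-- **LEAF P.L1 = REG-ORB.**  Bi-invariance and finite support of the components at the place
`u` and along the orbit (`regLoc51` of the Iwahori function: sums over `I t I / I` of left
translates; `U(n_w) ⊆ I` because `u ∣ 𝔫`). -/
def RegOrbC51 : Prop :=
  ∀ ℓ Φ B g 𝔫 μc T₀ n n₀ m H' z' H z t k j T φ₀ Φ' f₀ F,
    IsLoc51 K K' ℓ Φ B g 𝔫 μc T₀ n n₀ m H' z' H z t k j T φ₀ Φ' f₀ F →
    RegAt51 n m φ₀ f₀ B.u

/-- **LEAF P.L2 = REG-SPH.**  Bi-invariance under `GL₂(𝒪)` and finite support of the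
convolution products of spherical functions, at the places of `T` outside the level. -/
def RegSphC51 : Prop :=
  ∀ ℓ Φ B g 𝔫 μc T₀ n n₀ m H' z' H z t k j T φ₀ Φ' f₀ F,
    IsLoc51 K K' ℓ Φ B g 𝔫 μc T₀ n n₀ m H' z' H z t k j T φ₀ Φ' f₀ F →
    ∀ v ∈ T, v ∉ T₀ → RegAt51 n m φ₀ f₀ v

/-- **LEAF P.L3 = REG-ARCH.**  The convolution products at infinity are continuous, of compact
support, invariant under the complex conjugation (the Haar measure of `GL₂(ℂ)` is invariant
under the conjugation). -/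
def RegArchC51 : Prop :=
  ∀ ℓ Φ B g 𝔫 μc T₀ n n₀ m H' z' H z t k j T φ₀ Φ' f₀ F,
    IsLoc51 K K' ℓ Φ B g 𝔫 μc T₀ n n₀ m H' z' H z t k j T φ₀ Φ' f₀ F →
    RegArch51 Φ' F

/-- **LEAF P.L4 = INERT-SPH (fundamental lemma).**  At an inert place of `T` outside the level
the products are spherical with Satake transforms related by the base change
(multiplicativity of the Satake transform, `T6.IsBC` of the factors), hence matched
(`T6.FundLemmaC`, closed; the place is unramified: `RamIn`). -/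
def InertSphC51 : Prop :=
  ∀ ℓ Φ B g 𝔫 μc T₀ n n₀ m H' z' H z t k j T φ₀ Φ' f₀ F,
    IsLoc51 K K' ℓ Φ B g 𝔫 μc T₀ n n₀ m H' z' H z t k j T φ₀ Φ' f₀ F →
    ∀ v ∈ T, v ∉ T₀ → InertAt51 (B.comp 𝔫) n m φ₀ f₀ v

/-- **LEAF P.L5 = SPLIT-ORB (Iwahori–Hecke algebra at `u`).**  There is `t ≠ 0`
(`= [I : U(m_u)]^(ℓ-1)`, depending on the context only) such that for the shape with this `t`
the clause `split` holds at `u`: the enumeration `w j = o (j (ℓ-1))`, the identifications of the
completions at the split place `u`, and `t · regLoc51 u z H k j 1_I` is the convolution product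
(`vol U(m_u) = 1`) of `regLoc51 (o 0) z' H' k j 1_I` and `ℓ - 1` copies of `1_I`. -/
def SplitOrbC51 : Prop :=
  ∀ (ℓ : ℕ) (Φ : HeckeEigensystem K' ℂ) (B : L2Base K K') (g : G K') (𝔫 : Ideal (𝓞 K))
    (μc : @Measure (GL (Fin 2) ℂ) (borel _)) (T₀ : Finset (HeightOneSpectrum (𝓞 K)))
    (n n₀ : HeightOneSpectrum (𝓞 K') → ℕ) (m : HeightOneSpectrum (𝓞 K) → ℕ),
    IsCtx51 ℓ Φ B g 𝔫 μc T₀ n n₀ m →
    ∃ t : ℂ, t ≠ 0 ∧
      ∀ H' z' H z k j T φ₀ Φ' f₀ F,
        IsLoc51 K K' ℓ Φ B g 𝔫 μc T₀ n n₀ m H' z' H z t k j T φ₀ Φ' f₀ F →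
        SplitAt51 (B.comp 𝔫) n m φ₀ f₀ B.u

/-- **LEAF P.L6 = SPLIT-SPH.**  At a split place of `T` outside the level: an enumeration of
the places over it, identifications of the completions, and the component downstairs is the
convolution product of the components upstairs (the Satake transform is multiplicative and
injective; clause `split` of `SphOut893` for the factors). -/
def SplitSphC51 : Prop :=
  ∀ ℓ Φ B g 𝔫 μc T₀ n n₀ m H' z' H z t k j T φ₀ Φ' f₀ F,
    IsLoc51 K K' ℓ Φ B g 𝔫 μc T₀ n n₀ m H' z' H z t k j T φ₀ Φ' f₀ F →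
    ∀ v ∈ T, v ∉ T₀ → SplitAt51 (B.comp 𝔫) n m φ₀ f₀ v

/-- **LEAF P.L7 = ARCH-PROD (Gelfand pair).**  At infinity: the convolution algebra of the
continuous bi-`U(2)`-invariant functions of compact support on `GL₂(ℂ)` is commutative and
associative, so the product of the convolution products is the convolution product of the
products. -/
def ArchProdC51 : Prop :=
  ∀ ℓ Φ B g 𝔫 μc T₀ n n₀ m H' z' H z t k j T φ₀ Φ' f₀ F,
    IsLoc51 K K' ℓ Φ B g 𝔫 μc T₀ n n₀ m H' z' H z t k j T φ₀ Φ' f₀ F →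
    ArchAt51 (B.comp 𝔫) μc Φ' F

end Nodes

end Fermat.Agent.LT.T7.P51

end
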