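import Mathlib
import Fermat.Agent.LT.T7.P51.ProdMtSpec

/-!
# Row LT, tower T7, node T7.L2.1.H2b.G `GlobProdC51` (helper51): FIRST SUB-CUT -- Spec + top

OFF-MAIN.  Definitions, frozen Props, PROVED top.  No hole, nothing assumed.  ADDITIVE.

    globProdC_of51 : OpAvgC51 K K' → ConvAvgC51 K K' → GlobProdC51 K K'

* **`LocOp51`** = the local shape of the OPERATED second pair
  `(lsum Hg (regL (o 0) z' H' k j φ₂), regL u z H k j f₂)`: the shape `LocB893b` with the unit
  components at the bad places replaced by the double coset functions of `g` and the Iwahori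
  components at `o 0`, `u` replaced by `regLoc51`.
* **`OpAvgC51`** (NODE, adelic coset bookkeeping): the operated second pair is an average of
  pure tensors of shape `LocOp51`, with the same constant.
* **`ConvAvgC51`** (NODE, Haar splitting + Fubini): the convolution of an average of shape
  `LocA893` (constant `1`) with an average of shape `LocOp51` (constant `a`) is an average of
  shape `LocProd51 … t` with the constant `a c / t`; `c ≠ 0` depends on the context only.
-/

set_option autoImplicit false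

open AutomorphicForm IsDedekindDomain NumberField MeasureTheory
open scoped ComplexConjugate

noncomputable section

namespace Fermat.Agent.LT.T7.P51

open Fermat.Agent.LT.H556 Fermat.Agent.LT.H556.A0 Fermat.Agent.LT.T7
open Fermat.Agent.LT.T7.H305 Fermat.Agent.LT.T7.H893

attribute [local instance] Fermat.Agent.LT.T5.instMeasurableSpaceG

section Shape

variable {K K' : Type} [Field K] [NumberField K] [Field K'] [NumberField K'] [Algebra K K']

/-- **THE LOCAL SHAPE OF THE OPERATED SECOND PAIR.**  `(φ₂, f₂)` are the components of a pure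
tensor of shape `LocB893b`; the components at infinity are unchanged. -/
def LocOp51 (B : L2Base K K') (g : G K') (𝔫 : Ideal (𝓞 K))
    (μc : @Measure (GL (Fin 2) ℂ) (borel _)) (T₀ : Finset (HeightOneSpectrum (𝓞 K)))
    (n n₀ : HeightOneSpectrum (𝓞 K') → ℕ) (m : HeightOneSpectrum (𝓞 K) → ℕ)
    (H' : Finset (G K')) (z' : G K') (H : Finset (G K)) (z : G K) (k : ℤ) (j : ℕ) :
    LocCond K K' :=
  fun T φ₀ Φ f₀ F =>
    ∃ (φ₂ : ∀ w : HeightOneSpectrum (𝓞 K'), GL (Fin 2) (w.adicCompletion K') → ℂ)
      (f₂ : ∀ v : HeightOneSpectrum (𝓞 K), GL (Fin 2) (v.adicCompletion K) → ℂ),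
      LocB893b B g 𝔫 μc T₀ n n₀ m T φ₂ Φ f₂ F ∧
      (∀ v ∈ T₀, v ≠ B.u → f₀ v = f₂ v ∧
        ∀ w : HeightOneSpectrum (𝓞 K'), PlaceOver K K' v w →
          φ₀ w = dblFn893 (n₀ w) (finGL305 w g)) ∧
      f₀ B.u = regLoc51 B.u z H k j iwFn893 ∧
      φ₀ (B.o 0) = regLoc51 (B.o 0) z' H' k j iwFn893 ∧
      (∀ i : ℕ, 0 < i → i < B.l → φ₀ (B.o i) = iwFn893) ∧
      ∀ v ∈ T, v ∉ T₀ → f₀ v = f₂ v ∧
        ∀ w : HeightOneSpectrum (𝓞 K'), PlaceOver K K' v w → φ₀ w = φ₂ w

end Shape

section Nodes

variable (K K' : Type) [Field K] [NumberField K] [Field K'] [NumberField K'] [Algebra K K']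

/-- **NODE P.G1 = OP-AVG (adelic coset bookkeeping).**  In the context, for pre-data of level
`𝔫` with the operator properties whose second pair is an average of pure tensors of shape
`LocB893b` with the constant `a`: the operated second pair
`(lsum Hg (regL (o 0) z' H' k j φ₂), regL u z H k j f₂)` is an average of pure tensors of shape
`LocOp51` with the constant `a` (same parameter space, same measure).
Proof.  `lsum`, `regL` are finite sums of left translates, so they commute with the average.
The elements of `H'` (resp. `H`) and `z'` (resp. `z`) are supported at `o 0` (resp. `u`): the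
translate of a pure tensor is the pure tensor with the translated component, and
`finGL305 w` is a homomorphism.  The elements of `Hg` are in `U(𝔑₀) g U(𝔑₀)`, `g` is trivial
outside the bad places: their components are in `GL₂(𝒪_w)` outside `S'` (the components of the
pure tensor there are spherical or unit), in `U(𝔑₀)_w ⊆ I_w` along the orbit, trivial at
infinity, and in `U(n₀ w) g_w U(n₀ w)` at the bad places; the sum over `Hg` of the products
over the bad places of the translated unit functions is the product of the double coset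
functions (`IsDblCosetSystem`: exactly one `h ∈ Hg` with `h⁻¹ y ∈ U(𝔑₀)` for `y` in the
double coset).  Every member is a test function of level `𝔫 𝒪_{K'}` (resp. `𝔫`): bi-invariance
of the new components under `U(n w) ⊆ U(n₀ w)`, `U(n w) ⊆ I_w`. -/
def OpAvgC51 : Prop :=
  ∀ (ℓ : ℕ) (Φ : HeckeEigensystem K' ℂ) (B : L2Base K K') (g : G K') (𝔫 : Ideal (𝓞 K))
    (μc : @Measure (GL (Fin 2) ℂ) (borel _)) (T₀ : Finset (HeightOneSpectrum (𝓞 K)))
    (n n₀ : HeightOneSpectrum (𝓞 K') → ℕ) (m : HeightOneSpectrum (𝓞 K) → ℕ),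
    IsCtx51 ℓ Φ B g 𝔫 μc T₀ n n₀ m →
    ∀ a : ℂ, a ≠ 0 → ∀ E : L2Pre K K', E.𝔫 = 𝔫 → IsL2PreOp ℓ Φ B g E →
      IsAvgPure (upI (K' := K') 𝔫) 𝔫 T₀ (LocB893b B g 𝔫 μc T₀ n n₀ m) a E.φ₂ E.f₂ →
      ∀ (k : ℤ) (j : ℕ),
        IsAvgPure (upI (K' := K') 𝔫) 𝔫 T₀
          (LocOp51 B g 𝔫 μc T₀ n n₀ m E.H' E.z' E.H E.z k j) a
          (lsum E.Hg (regL (B.o 0) E.z' E.H' k j E.φ₂)) (regL B.u E.z E.H k j E.f₂)

/-- **NODE P.G2 = CONV-AVG (Haar splitting + Fubini).**  In the context there is a constant
`c ≠ 0` such that the convolution (for the Haar measures of the frames) of an average of pure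
tensors of shape `LocA893` with the constant `1` and an average of pure tensors of shape
`LocOp51` with the constant `a` is an average of pure tensors of shape `LocProd51 … t` with the
constant `a c / t`.
Proof.  Parameter space = the product of the two parameter spaces, measure = `c'` times the
product measure, `c'` the normalising constant upstairs.  Fubini (joint continuity, one compact
support).  `conv` of two pure tensors = constant times the pure tensor for the union of the two
sets of places with the local convolutions as components (`H305.HaarSplitC305`, closed; local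
Haar measures with `vol U(n_w) = 1`, so the constant does not depend on the sets; kit of
helper947).  At the places of the level the first pair has unit components:
`1_{U(n_w)} * X = X` for `X` left invariant under `U(n_w)`.  The component downstairs at `u` is
multiplied by `t`, the constant divided by `t`.  `c = c_G / c'_G`.  The members are test
functions (`conv` of test functions). -/
def ConvAvgC51 : Prop :=
  ∀ (ℓ : ℕ) (Φ : HeckeEigensystem K' ℂ) (B : L2Base K K') (g : G K') (𝔫 : Ideal (𝓞 K))
    (μc : @Measure (GL (Fin 2) ℂ) (borel _)) (T₀ : Finset (HeightOneSpectrum (𝓞 K)))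
    (n n₀ : HeightOneSpectrum (𝓞 K') → ℕ) (m : HeightOneSpectrum (𝓞 K) → ℕ),
    IsCtx51 ℓ Φ B g 𝔫 μc T₀ n n₀ m →
    ∃ c : ℂ, c ≠ 0 ∧ ∀ t a : ℂ, t ≠ 0 → a ≠ 0 →
      ∀ (H' : Finset (G K')) (z' : G K') (H : Finset (G K)) (z : G K),
        IsSys51 B 𝔫 H' z' H z →
        ∀ (k : ℤ) (j : ℕ) (φ₁' φ₂' : G K' → ℂ) (f₁ f₂ : G K → ℂ),
          IsAvgPure (upI (K' := K') 𝔫) 𝔫 T₀ (LocA893 B 𝔫 μc T₀ n m) 1 φ₁' f₁ →
          IsAvgPure (upI (K' := K') 𝔫) 𝔫 T₀
            (LocOp51 B g 𝔫 μc T₀ n n₀ m H' z' H z k j) a φ₂' f₂ →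
          IsAvgPure (upI (K' := K') 𝔫) 𝔫 T₀
            (LocProd51 B g 𝔫 μc T₀ n n₀ m H' z' H z t k j) (a * c / t)
            (T5.conv B.R'.μ φ₁' φ₂') (T5.conv B.R.μ f₁ f₂)

variable {K K'}

/-- **THE GLOBAL NODE from its two nodes.** -/
theorem globProdC_of51 (h1 : OpAvgC51 K K') (h2 : ConvAvgC51 K K') : GlobProdC51 K K' := by
  intro ℓ Φ B g 𝔫 μc T₀ n n₀ m hctx
  obtain ⟨c, hc, h⟩ := h2 ℓ Φ B g 𝔫 μc T₀ n n₀ m hctx
  refine ⟨c, hc, ?_⟩
  intro t a ht ha E hE hOp hA1 hA2 X k j hX
  have hsys : IsSys51 B 𝔫 E.H' E.z' E.H E.z :=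
    { level_ne := hE ▸ hOp.level_ne
      level_g := hE ▸ hOp.level_g
      mem_S'_g := hE ▸ hOp.mem_S'_g
      u_level := hE ▸ hOp.u_level
      sys' := hOp.sys'
      unif' := hOp.unif'
      sys := hOp.sys
      unif := hOp.unif }
  exact h t a ht ha E.H' E.z' E.H E.z hsys k j _ _ _ _ (hA1 X hX)
    (h1 ℓ Φ B g 𝔫 μc T₀ n n₀ m hctx a ha E hE hOp hA2 k j)

end Nodes

end Fermat.Agent.LT.T7.P51

end
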