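import Mathlib
import Fermat.Agent.LT.T7.P51.GlobProdSpec

/-!
# Row LT, tower T7, node T7.L2.1.H2b.G2 `ConvAvgC51` (helper51): SECOND SUB-CUT -- Spec

OFF-MAIN.  Definitions and frozen Props only (the proved top is `ConvAvgTop.lean`).  No hole,
nothing assumed.  ADDITIVE.

    convAvgC_of51 : ConvFamC51 K' → ConvFamC51 K → (small leaves) → ConvAvgC51 K K'

* **`ConvFamC51 F`** (NODE, ONE field; Haar splitting + Fubini): for two FAMILIES of pure tensors
  (`IsFam51`: test functions, jointly continuous, one compact support, regular components) over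
  compact parameter spaces and components `χ` which are the local convolutions of the
  components: the pure tensors with the components `χ` (and the convolutions at infinity) form
  a family with the same properties, and the convolution of the two averages is the average of
  this family for `c` times the product measure; ONE constant `c` for all families.
* small leaves: existence of local convolutions, `1_{U(n)} * X = X`, regularity of the shapes
  `LocA893`, `LocOp51`, the places over a finite set, existence and uniqueness of the place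
  below, `K'` is totally complex, scalar multiples of test functions, the unit is regular.
-/

set_option autoImplicit false

open AutomorphicForm IsDedekindDomain NumberField MeasureTheory
open scoped ComplexConjugate

noncomputable section

namespace Fermat.Agent.LT.T7.P51

open Fermat.Agent.LT.H556 Fermat.Agent.LT.H556.A0 Fermat.Agent.LT.T7
open Fermat.Agent.LT.T7.H305 Fermat.Agent.LT.T7.H893

attribute [local instance] Fermat.Agent.LT.T5.instMeasurableSpaceG

/-! ## 1. Families of pure tensors (one field) -/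

section OneField

variable {F : Type} [Field F] [NumberField F]

open Classical in
/-- The components of a pure tensor, extended by the unit `1_{GL₂(𝒪)}` outside `T`. -/
def ext51 (T : Finset (HeightOneSpectrum (𝓞 F)))
    (φ : ∀ w : HeightOneSpectrum (𝓞 F), GL (Fin 2) (w.adicCompletion F) → ℂ)
    (w : HeightOneSpectrum (𝓞 F)) : GL (Fin 2) (w.adicCompletion F) → ℂ :=
  if w ∈ T then φ w else unitFn893 0

/-- **A FAMILY OF PURE TENSORS** over the parameter space `Ω`: the sets of places contain `T₀`,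
every member is a test function of level `𝔫`, the members are jointly continuous and supported
in one compact set, the components are regular for the levels `lv`. -/
structure IsFam51 (𝔫 : Ideal (𝓞 F)) (lv : HeightOneSpectrum (𝓞 F) → ℕ)
    (T₀ : Finset (HeightOneSpectrum (𝓞 F)))
    {Ω : Type} [TopologicalSpace Ω] (T : Ω → Finset (HeightOneSpectrum (𝓞 F)))
    (φ₀ : Ω → ∀ w : HeightOneSpectrum (𝓞 F), GL (Fin 2) (w.adicCompletion F) → ℂ)
    (Φ : Ω → InfinitePlace F → GL (Fin 2) ℂ → ℂ) : Prop where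
  sub : ∀ a : Ω, T₀ ⊆ T a
  test : ∀ a : Ω, T5.IsTestFn 𝔫 T5.trivType (pure305 (T a) (φ₀ a) (Φ a))
  cont : Continuous (fun p : Ω × G F => pure305 (T p.1) (φ₀ p.1) (Φ p.1) p.2)
  supp : ∃ C : Set (G F), IsCompact C ∧
    ∀ (a : Ω) (h : G F), pure305 (T a) (φ₀ a) (Φ a) h ≠ 0 → h ∈ C
  reg : ∀ (a : Ω) (w : HeightOneSpectrum (𝓞 F)), w ∈ T a →
    T6.IsBiInv (T6.InU (lv w)) (φ₀ a w) ∧ T6.HasFinSupp (T6.InU (lv w)) (φ₀ a w)
  arch : ∀ (a : Ω) (w : InfinitePlace F), Continuous (Φ a w) ∧ HasCompactSupport (Φ a w)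

variable (F)

open Classical in
/-- **NODE P.G2.1 = CONV-FAM (ONE field; Haar splitting + Fubini).**  `F` totally complex, `μ` a
Haar measure of `GL₂(𝔸_F)`, `μc` one of `GL₂(ℂ)`, levels `lv` (`0` outside `T₀`), `𝔫 ≠ 0`.
There is a constant `c > 0` such that for two families of pure tensors over `Ω₁`, `Ω₂` (finite
measures `ν₁`, `ν₂`) and components `χ p`, `p ∈ Ω₁ × Ω₂`, which are the local convolutions
(`vol U(lv w) = 1`) of the extended components at the places of `T₁ p.1 ∪ T₂ p.2`: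
the pure tensors `pure305 (T₁ p.1 ∪ T₂ p.2) (χ p) (Φ₁ p.1 * Φ₂ p.2)` are test functions of level
`𝔫`, jointly continuous, supported in one compact set, and
`(∫ P₁ dν₁) ⋆ (∫ P₂ dν₂) = ∫ pure305 … d(c · ν₁ × ν₂)`.
Proof.  Fubini (joint continuity, compact supports, finite measures): the convolution of the
averages is the average of the convolutions over `ν₁ × ν₂`.  For pure tensors
`P₁ ⋆ P₂ = c · pure305 (T₁ ∪ T₂) χ (Φ₁ * Φ₂)`: the integrand `x ↦ P₁(x) P₂(x⁻¹ y)` is supported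
in `Out_S`, `S = T₁ ∪ T₂`, and factors through `compS305 S`; `H305.HaarSplitC305` (closed) for
the levels `lv` and `S`; at `w ∈ S` the local integral for a Haar measure with
`vol U(lv w) = 1` is the finite sum of `T6.IsConv` (right/left invariance of the factors,
finite support); outside `S` both components are `1_{GL₂(𝒪)}` and `lv = 0`.  `c` does not
depend on `S`.  The product pure tensor is `c⁻¹ P₁ ⋆ P₂`: a test function
(`isTestFn_conv872`, helper872), jointly continuous in the parameters, supported in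
`C₁ C₂`. -/
def ConvFamC51 : Prop :=
  TotCplx F → ∀ μ : Measure (G F), μ.IsHaarMeasure →
    ∀ μc : @Measure (GL (Fin 2) ℂ) (borel _), @Measure.IsHaarMeasure _ _ _ (borel _) μc →
    ∀ (T₀ : Finset (HeightOneSpectrum (𝓞 F))) (lv : HeightOneSpectrum (𝓞 F) → ℕ),
      (∀ v : HeightOneSpectrum (𝓞 F), v ∉ T₀ → lv v = 0) →
    ∀ 𝔫 : Ideal (𝓞 F), 𝔫 ≠ ⊥ →
    ∃ c : NNReal, c ≠ 0 ∧
      ∀ (Ω₁ : Type) [TopologicalSpace Ω₁] [CompactSpace Ω₁] [T2Space Ω₁]
        [SecondCountableTopology Ω₁] [MeasurableSpace Ω₁] [BorelSpace Ω₁]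
        (ν₁ : Measure Ω₁) [IsFiniteMeasure ν₁]
        (Ω₂ : Type) [TopologicalSpace Ω₂] [CompactSpace Ω₂] [T2Space Ω₂]
        [SecondCountableTopology Ω₂] [MeasurableSpace Ω₂] [BorelSpace Ω₂]
        (ν₂ : Measure Ω₂) [IsFiniteMeasure ν₂]
        (T₁ : Ω₁ → Finset (HeightOneSpectrum (𝓞 F)))
        (φ₁ : Ω₁ → ∀ w : HeightOneSpectrum (𝓞 F), GL (Fin 2) (w.adicCompletion F) → ℂ)
        (Φ₁ : Ω₁ → InfinitePlace F → GL (Fin 2) ℂ → ℂ)
        (T₂ : Ω₂ → Finset (HeightOneSpectrum (𝓞 F)))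
        (φ₂ : Ω₂ → ∀ w : HeightOneSpectrum (𝓞 F), GL (Fin 2) (w.adicCompletion F) → ℂ)
        (Φ₂ : Ω₂ → InfinitePlace F → GL (Fin 2) ℂ → ℂ)
        (χ : Ω₁ × Ω₂ → ∀ w : HeightOneSpectrum (𝓞 F), GL (Fin 2) (w.adicCompletion F) → ℂ),
        IsFam51 𝔫 lv T₀ T₁ φ₁ Φ₁ → IsFam51 𝔫 lv T₀ T₂ φ₂ Φ₂ →
        (∀ (p : Ω₁ × Ω₂) (w : HeightOneSpectrum (𝓞 F)), w ∈ T₁ p.1 ∪ T₂ p.2 →
          T6.IsConv (T6.InU (lv w)) (ext51 (T₁ p.1) (φ₁ p.1) w) (ext51 (T₂ p.2) (φ₂ p.2) w)
            (χ p w)) →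
        (∀ p : Ω₁ × Ω₂, T5.IsTestFn 𝔫 T5.trivType
          (pure305 (T₁ p.1 ∪ T₂ p.2) (χ p)
            (fun w => @T6.convInt _ _ (borel _) μc (Φ₁ p.1 w) (Φ₂ p.2 w)))) ∧
        Continuous (fun q : (Ω₁ × Ω₂) × G F =>
          pure305 (T₁ q.1.1 ∪ T₂ q.1.2) (χ q.1)
            (fun w => @T6.convInt _ _ (borel _) μc (Φ₁ q.1.1 w) (Φ₂ q.1.2 w)) q.2) ∧
        (∃ C : Set (G F), IsCompact C ∧ ∀ (p : Ω₁ × Ω₂) (h : G F),
          pure305 (T₁ p.1 ∪ T₂ p.2) (χ p)
            (fun w => @T6.convInt _ _ (borel _) μc (Φ₁ p.1 w) (Φ₂ p.2 w)) h ≠ 0 → h ∈ C) ∧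
        ∀ h : G F,
          T5.conv μ (fun x => ∫ a, pure305 (T₁ a) (φ₁ a) (Φ₁ a) x ∂ν₁)
              (fun x => ∫ b, pure305 (T₂ b) (φ₂ b) (Φ₂ b) x ∂ν₂) h
            = ∫ p, pure305 (T₁ p.1 ∪ T₂ p.2) (χ p)
                (fun w => @T6.convInt _ _ (borel _) μc (Φ₁ p.1 w) (Φ₂ p.2 w)) h
                ∂(c • (ν₁.prod ν₂))

/-- **LEAF P.G2.2 = TEST-SMUL (one field).**  A scalar multiple of a test function is a test
function. -/
def TestSmulC51 : Prop :=
  ∀ (𝔫 : Ideal (𝓞 F)) (φ : G F → ℂ) (c : ℂ),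
    T5.IsTestFn 𝔫 T5.trivType φ → T5.IsTestFn 𝔫 T5.trivType (fun h => c * φ h)

end OneField

/-! ## 2. The local leaves -/

section Local

/-- **LEAF P.G2.3 = LOC-CONV-EX (local).**  The convolution (`vol U(n) = 1`) of two
bi-`U(n)`-invariant functions of finite support exists. -/
def LocConvExC51 : Prop :=
  ∀ (k : Type) [Field k] [Valued k T6.Γ₀] (n : ℕ) (φ ψ : GL (Fin 2) k → ℂ),
    T6.IsBiInv (T6.InU n) φ → T6.HasFinSupp (T6.InU n) φ →
    T6.IsBiInv (T6.InU n) ψ → T6.HasFinSupp (T6.InU n) ψ →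
    ∃ χ : GL (Fin 2) k → ℂ, T6.IsConv (T6.InU n) φ ψ χ

/-- **LEAF P.G2.4 = UNIT-CONV (local).**  `1_{U(n)} * X = X` for `X` bi-invariant under `U(n)`. -/
def UnitConvC51 : Prop :=
  ∀ (k : Type) [Field k] [Valued k T6.Γ₀] (n : ℕ) (X : GL (Fin 2) k → ℂ),
    T6.IsBiInv (T6.InU n) X → T6.IsConv (T6.InU n) (unitFn893 n) X X

/-- **LEAF P.G2.10 = UNIT-REG (local).**  `1_{U(n)}` is bi-invariant under `U(n)` and supported
on one coset. -/
def UnitRegC51 : Prop :=
  ∀ (k : Type) [Field k] [Valued k T6.Γ₀] (n : ℕ),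
    T6.IsBiInv (T6.InU n) (unitFn893 (k := k) n) ∧
      T6.HasFinSupp (T6.InU n) (unitFn893 (k := k) n)

end Local

/-! ## 3. The leaves on the shapes and the places -/

section Shapes

variable (K K' : Type) [Field K] [NumberField K] [Field K'] [NumberField K'] [Algebra K K']

/-- **LEAF P.G2.5 = REG-A.**  The components of the shape `LocA893` are regular at the places
of `T` (unit at the level, spherical outside) and at infinity. -/
def RegAC51 : Prop :=
  ∀ ℓ Φ B g 𝔫 μc T₀ n n₀ m, IsCtx51 (K := K) (K' := K') ℓ Φ B g 𝔫 μc T₀ n n₀ m →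
    ∀ T φ₀ Φ' f₀ F, T₀ ⊆ T → LocA893 B 𝔫 μc T₀ n m T φ₀ Φ' f₀ F →
      (∀ v ∈ T, RegAt51 n m φ₀ f₀ v) ∧
      (∀ w : InfinitePlace K', Continuous (Φ' w) ∧ HasCompactSupport (Φ' w)) ∧
      ∀ v : InfinitePlace K, Continuous (F v) ∧ HasCompactSupport (F v)

/-- **LEAF P.G2.6 = REG-OP.**  The components of the shape `LocOp51` are regular at the places
of `T` (double coset functions and partners at the bad places, `regLoc51` of the Iwahori
function along the orbit, spherical outside) and at infinity. -/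
def RegOpC51 : Prop :=
  ∀ ℓ Φ B g 𝔫 μc T₀ n n₀ m, IsCtx51 (K := K) (K' := K') ℓ Φ B g 𝔫 μc T₀ n n₀ m →
    ∀ H' z' H z, IsSys51 B 𝔫 H' z' H z →
    ∀ k j T φ₀ Φ' f₀ F, T₀ ⊆ T → LocOp51 B g 𝔫 μc T₀ n n₀ m H' z' H z k j T φ₀ Φ' f₀ F →
      (∀ v ∈ T, RegAt51 n m φ₀ f₀ v) ∧
      (∀ w : InfinitePlace K', Continuous (Φ' w) ∧ HasCompactSupport (Φ' w)) ∧
      ∀ v : InfinitePlace K, Continuous (F v) ∧ HasCompactSupport (F v)

/-- **LEAF P.G2.7 = OVER-FIN.**  The places of `K'` over a finite set of places of `K` form a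
finite set. -/
def OverFinC51 : Prop :=
  ∀ T : Finset (HeightOneSpectrum (𝓞 K)), ∃ T' : Finset (HeightOneSpectrum (𝓞 K')),
    IsOver305 T T'

/-- **LEAF P.G2.8 = BELOW-UNIQ.**  The place below a place of `K'` is unique. -/
def BelowUniqC51 : Prop :=
  ∀ (v v' : HeightOneSpectrum (𝓞 K)) (w : HeightOneSpectrum (𝓞 K')),
    PlaceOver K K' v w → PlaceOver K K' v' w → v = v'

/-- **LEAF P.G2.11 = BELOW-EX.**  Every place of `K'` lies over a place of `K`. -/
def BelowExC51 : Prop :=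
  ∀ w : HeightOneSpectrum (𝓞 K'), ∃ v : HeightOneSpectrum (𝓞 K), PlaceOver K K' v w

/-- **LEAF P.G2.9 = TOT-CPLX-UP.**  An extension of a totally complex field is totally
complex. -/
def TotCplxUpC51 : Prop := TotCplx K → TotCplx K'

end Shapes

end Fermat.Agent.LT.T7.P51

end
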