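import Mathlib
import Fermat.Agent.LT.T7.P51.ProdMtSpec

/-!
# Row LT, tower T7, node T7.L2.1.H2b `ProdMtCb` (helper51, SPARE CUT): the PROVED tops

OFF-MAIN.  No hole, nothing assumed.  ADDITIVE.

    locProdC_of51 : RegOrbC51 → RegSphC51 → RegArchC51 → InertSphC51 → SplitOrbC51
        → SplitSphC51 → ArchProdC51 → LocProdC51 K K'
    prodMtCb_of51 : GlobProdC51 K K' → LocProdC51 K K' → UnramC51 K K' → LevelAtC51 K K'
        → LevelUniqC51 → ∀ κ, (∀ D μc T₀ n m, κ D μc T₀ n m ≠ 0) → H893.ProdMtCb K K' κ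
-/

set_option autoImplicit false

open AutomorphicForm IsDedekindDomain NumberField MeasureTheory
open scoped ComplexConjugate

noncomputable section

namespace Fermat.Agent.LT.T7.P51

open Fermat.Agent.LT.H556 Fermat.Agent.LT.H556.A0 Fermat.Agent.LT.T7
open Fermat.Agent.LT.T7.H305 Fermat.Agent.LT.T7.H893

attribute [local instance] Fermat.Agent.LT.T5.instMeasurableSpaceG

section Tops

variable {K K' : Type} [Field K] [NumberField K] [Field K'] [NumberField K'] [Algebra K K']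

/-- `IsAvgPure` is monotone in the local condition. -/
theorem isAvgPure_mono51 {𝔑 : Ideal (𝓞 K')} {𝔫 : Ideal (𝓞 K)}
    {T₀ : Finset (HeightOneSpectrum (𝓞 K))} {L L' : LocCond K K'} {c : ℂ}
    {φ' : G K' → ℂ} {f : G K → ℂ}
    (hL : ∀ T φ₀ Φ f₀ F, L T φ₀ Φ f₀ F → L' T φ₀ Φ f₀ F)
    (h : IsAvgPure 𝔑 𝔫 T₀ L c φ' f) : IsAvgPure 𝔑 𝔫 T₀ L' c φ' f := by
  obtain ⟨Ω, i1, i2, i3, i4, i5, i6, ν, i7, T, T', φ₀, Φ, f₀, F, h1, h2⟩ := h
  exact ⟨Ω, i1, i2, i3, i4, i5, i6, ν, i7, T, T', φ₀, Φ, f₀, F,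
    fun a => ⟨(h1 a).1, (h1 a).2.1, hL _ _ _ _ _ (h1 a).2.2⟩, h2⟩

/-- **THE LOCAL NODE from its leaves.** -/
theorem locProdC_of51 (h1 : RegOrbC51 K K') (h2 : RegSphC51 K K') (h3 : RegArchC51 K K')
    (h4 : InertSphC51 K K') (h5 : SplitOrbC51 K K') (h6 : SplitSphC51 K K')
    (h7 : ArchProdC51 K K') : LocProdC51 K K' := by
  classical
  intro ℓ Φ B g 𝔫 μc T₀ n n₀ m hctx
  obtain ⟨t, ht, hsplit⟩ := h5 ℓ Φ B g 𝔫 μc T₀ n n₀ m hctx
  refine ⟨t, ht, ?_⟩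
  intro H' z' H z hsys k j T φ₀ Φ' f₀ F hLP
  have hloc : IsLoc51 K K' ℓ Φ B g 𝔫 μc T₀ n n₀ m H' z' H z t k j T φ₀ Φ' f₀ F :=
    ⟨hctx, hsys, ht, hLP⟩
  obtain ⟨T₁, T₂, φ₁, Φ₁, f₁, F₁, φ₂, Φ₂, f₂, F₂, hT, hT₁, hT₂, hA, hB, hbad, hfu, hφ0, hφi,
    hsph, hΦ, hF⟩ := hLP
  have hBh := hB.1
  -- the three kinds of places
  have hcase : ∀ v ∈ T, v = B.u ∨ (v ∈ T₀.erase B.u ∧ v ∈ T₀ ∧ v ≠ B.u) ∨ v ∉ T₀ := by
    intro v _
    by_cases hvu : v = B.u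
    · exact Or.inl hvu
    · by_cases hv0 : v ∈ T₀
      · exact Or.inr (Or.inl ⟨Finset.mem_erase.2 ⟨hvu, hv0⟩, hv0, hvu⟩)
      · exact Or.inr (Or.inr hv0)
  have hreg : ∀ v ∈ T, RegAt51 n m φ₀ f₀ v := by
    intro v hv
    rcases hcase v hv with hvu | ⟨hve, hv0, hvu⟩ | hv0
    · subst hvu
      exact h1 _ _ _ _ _ _ _ _ _ _ _ _ _ _ _ _ _ _ _ _ _ _ hloc
    · refine ⟨fun w hw => ?_, ?_⟩
      · rw [(hbad v hv0 hvu).2 w hw]
        exact hBh.inv_up v hve w hw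
      · rw [(hbad v hv0 hvu).1]
        exact hBh.inv_down v hve
    · exact h2 _ _ _ _ _ _ _ _ _ _ _ _ _ _ _ _ _ _ _ _ _ _ hloc v hv hv0
  have harch := h3 _ _ _ _ _ _ _ _ _ _ _ _ _ _ _ _ _ _ _ _ _ _ hloc
  have hinert : ∀ v ∈ T, InertAt51 (B.comp 𝔫) n m φ₀ f₀ v := by
    intro v hv
    rcases hcase v hv with hvu | ⟨hve, hv0, hvu⟩ | hv0
    · subst hvu
      intro w _ huniq
      exfalso
      have e0 := huniq (B.o 0) (hctx.base.orbit_over 0)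
      have e1 := huniq (B.o 1) (hctx.base.orbit_over 1)
      exact hctx.base.orbit_ne 1 Nat.zero_lt_one hctx.cyc.prime.one_lt (e1.trans e0.symm)
    · intro w hw huniq e i sw hi hs hext
      have := hBh.inert v hve w hw huniq e i sw hi hs hext
      rw [(hbad v hv0 hvu).2 w hw, (hbad v hv0 hvu).1]
      exact this
    · exact h4 _ _ _ _ _ _ _ _ _ _ _ _ _ _ _ _ _ _ _ _ _ _ hloc v hv hv0
  have hsplitAll : ∀ v ∈ T, SplitAt51 (B.comp 𝔫) n m φ₀ f₀ v := by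
    intro v hv
    rcases hcase v hv with hvu | ⟨hve, hv0, hvu⟩ | hv0
    · subst hvu
      exact hsplit H' z' H z k j T φ₀ Φ' f₀ F hloc
    · intro hex
      obtain ⟨w, i, a1, a2, a3, a4, a5, a6, a7⟩ := hBh.split v hve hex
      refine ⟨w, i, a1, a2, a3, a4, a5, a6, ?_⟩
      have e : (fun (j : ℕ) (x : GL (Fin 2) (v.adicCompletion K)) => φ₀ (w j)
            (Matrix.GeneralLinearGroup.map ((i j : v.adicCompletion K ≃+* _) :
              v.adicCompletion K →+* (w j).adicCompletion K') x))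
          = fun (j : ℕ) (x : GL (Fin 2) (v.adicCompletion K)) =>
            (fun w : HeightOneSpectrum (𝓞 K') => dblFn893 (n₀ w) (finGL305 w g)) (w j)
              (Matrix.GeneralLinearGroup.map ((i j : v.adicCompletion K ≃+* _) :
                v.adicCompletion K →+* (w j).adicCompletion K') x) := by
        funext j x
        rw [(hbad v hv0 hvu).2 (w j) (a1 j)]
      rw [e, (hbad v hv0 hvu).1]
      exact a7
    · exact h6 _ _ _ _ _ _ _ _ _ _ _ _ _ _ _ _ _ _ _ _ _ _ hloc v hv hv0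
  exact
    { inv_up := fun v hv w hw => (hreg v hv).1 w hw
      inv_down := fun v hv => (hreg v hv).2
      arch_up := harch.1
      arch_down := harch.2
      inert := fun v hv => hinert v hv
      split := fun v hv => hsplitAll v hv
      arch := h7 _ _ _ _ _ _ _ _ _ _ _ _ _ _ _ _ _ _ _ _ _ _ hloc }

/-- **THE NODE `H893.ProdMtCb` from the cut.** -/
theorem prodMtCb_of51 (hG : GlobProdC51 K K') (hL : LocProdC51 K K') (hU : UnramC51 K K')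
    (hA : LevelAtC51 K K') (hQ : LevelUniqC51)
    (κ : KapFn K K') (hκ : ∀ D μc T₀ n m, κ D μc T₀ n m ≠ 0) : ProdMtCb K K' κ := by
  intro ℓ hcyc hl2 htc Φ B hB hRam g hg 𝔫 μc hμc
  by_cases hex : ∃ (T₀ : Finset (HeightOneSpectrum (𝓞 K)))
      (n n₀ : HeightOneSpectrum (𝓞 K') → ℕ) (m : HeightOneSpectrum (𝓞 K) → ℕ),
      (∀ v : HeightOneSpectrum (𝓞 K), v ∈ T₀ ↔ v.asIdeal ∣ 𝔫) ∧ IsLevelOf893 𝔫 m ∧
        IsLevelOf893 (upI (K' := K') 𝔫) n ∧ IsLevelOf893 B.𝔑₀ n₀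
  · obtain ⟨T₀, n, n₀, m, hT₀, hm, hn, hn₀⟩ := hex
    have hctx : IsCtx51 ℓ Φ B g 𝔫 μc T₀ n n₀ m :=
      { cyc := hcyc, ne2 := hl2, tc := htc, base := hB, ram := hRam, bad := hg, haar := hμc
        mem_T₀ := hT₀, lev_m := hm, lev_n := hn, lev_n₀ := hn₀ }
    obtain ⟨t, ht, hLt⟩ := hL ℓ Φ B g 𝔫 μc T₀ n n₀ m hctx
    obtain ⟨c, hc, hGc⟩ := hG ℓ Φ B g 𝔫 μc T₀ n n₀ m hctx
    have hk := hκ (B.comp 𝔫) μc T₀ n m
    have ha : κ (B.comp 𝔫) μc T₀ n m * t / c ≠ 0 := div_ne_zero (mul_ne_zero hk ht) hc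
    refine ⟨κ (B.comp 𝔫) μc T₀ n m * t / c, ha, ?_⟩
    intro E hE hOp hDec X k j hX
    obtain ⟨T₀', n', n₀', m', hT₀', hm', hn', hn₀', hA1, hA2⟩ := hDec
    rw [hE] at hT₀' hm' hn' hA1 hA2
    have eT : T₀' = T₀ := Finset.ext fun v => (hT₀' v).trans (hT₀ v).symm
    have em : m' = m := hQ K 𝔫 m' m hm' hm
    have en : n' = n := hQ K' (upI (K' := K') 𝔫) n' n hn' hn
    have en₀ : n₀' = n₀ := hQ K' B.𝔑₀ n₀' n₀ hn₀' hn₀
    subst eT em en en₀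
    have hsys : IsSys51 B 𝔫 E.H' E.z' E.H E.z :=
      { level_ne := hE ▸ hOp.level_ne
        level_g := hE ▸ hOp.level_g
        mem_S'_g := hE ▸ hOp.mem_S'_g
        u_level := hE ▸ hOp.u_level
        sys' := hOp.sys'
        unif' := hOp.unif'
        sys := hOp.sys
        unif := hOp.unif }
    have hprod := hGc t (κ (B.comp 𝔫) μc T₀' n' m' * t / c) ht ha E hE hOp hA1 hA2 X k j hX
    have hconst : κ (B.comp 𝔫) μc T₀' n' m' * t / c * c / t = κ (B.comp 𝔫) μc T₀' n' m' := by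
      field_simp
    rw [hconst] at hprod
    refine ⟨μc, T₀', n', m', hμc, hU B 𝔫 T₀' hRam hsys.mem_S'_g hT₀, hA 𝔫 T₀' n' m' hT₀ hm hn,
      ?_⟩
    exact isAvgPure_mono51
      (fun T φ₀ Φ' f₀ F h => hLt E.H' E.z' E.H E.z hsys k j T φ₀ Φ' f₀ F h) hprod
  · refine ⟨1, one_ne_zero, ?_⟩
    intro E hE _ hDec
    exfalso
    obtain ⟨T₀, n, n₀, m, hT₀, hm, hn, hn₀, _, _⟩ := hDec
    rw [hE] at hT₀ hm hn
    exact hex ⟨T₀, n, n₀, m, hT₀, hm, hn, hn₀⟩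

end Tops

end Fermat.Agent.LT.T7.P51

end
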