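import Mathlib
import Fermat.Agent.LT.T7.P51.ConvAvgSpec

/-!
# Row LT, tower T7, node T7.L2.1.H2b.G2 `ConvAvgC51` (helper51): the PROVED top

OFF-MAIN.  No hole, nothing assumed.  ADDITIVE.

    convAvgC_of51 : ConvFamC51 K' → ConvFamC51 K → TestSmulC51 K → LocConvExC51 → UnitConvC51
        → UnitRegC51 → RegAC51 K K' → RegOpC51 K K' → OverFinC51 K K' → BelowUniqC51 K K'
        → BelowExC51 K K' → TotCplxUpC51 K K' → LevelAtC51 K K' → ConvAvgC51 K K'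
-/

set_option autoImplicit false

open AutomorphicForm IsDedekindDomain NumberField MeasureTheory
open scoped ComplexConjugate

noncomputable section

namespace Fermat.Agent.LT.T7.P51

open Fermat.Agent.LT.H556 Fermat.Agent.LT.H556.A0 Fermat.Agent.LT.T7
open Fermat.Agent.LT.T7.H305 Fermat.Agent.LT.T7.H893

attribute [local instance] Fermat.Agent.LT.T5.instMeasurableSpaceG

section OneField

variable {F : Type} [Field F] [NumberField F]

/-- A pure tensor is linear in the component at a place of `T`. -/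
theorem pure305_scale51 (T : Finset (HeightOneSpectrum (𝓞 F)))
    (f₀ f₀' : ∀ v : HeightOneSpectrum (𝓞 F), GL (Fin 2) (v.adicCompletion F) → ℂ)
    (Φ : InfinitePlace F → GL (Fin 2) ℂ → ℂ) (u : HeightOneSpectrum (𝓞 F)) (hu : u ∈ T)
    (t : ℂ) (h1 : ∀ x, f₀' u x = t * f₀ u x) (h2 : ∀ v, v ≠ u → f₀' v = f₀ v) (h : G F) :
    pure305 T f₀' Φ h = t * pure305 T f₀ Φ h := by
  classical
  unfold pure305
  split_ifs with hO
  · rw [← Finset.mul_prod_erase T _ hu, ← Finset.mul_prod_erase T (fun v => f₀ v (finGL305 v h)) hu,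
      h1]
    have : ∏ v ∈ T.erase u, f₀' v (finGL305 v h) = ∏ v ∈ T.erase u, f₀ v (finGL305 v h) :=
      Finset.prod_congr rfl fun v hv => by rw [h2 v (Finset.ne_of_mem_erase hv)]
    rw [this]
    ring
  · simp

/-- The upper ideal of a non-zero ideal is not zero. -/
theorem upI_ne_bot51 {K K' : Type} [Field K] [NumberField K] [Field K'] [NumberField K']
    [Algebra K K'] (𝔫 : Ideal (𝓞 K)) (h : 𝔫 ≠ ⊥) : upI (K' := K') 𝔫 ≠ ⊥ := by
  unfold upI
  intro h0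
  exact h ((Ideal.map_eq_bot_iff_of_injective
    (FaithfulSMul.algebraMap_injective (𝓞 K) (𝓞 K'))).1 h0)

/-- `conv` is linear in the second argument. -/
theorem conv_const_mul51 (μ : Measure (G F)) (φ ψ : G F → ℂ) (a : ℂ) (h : G F) :
    T5.conv μ φ (fun x => a * ψ x) h = a * T5.conv μ φ ψ h := by
  unfold T5.conv
  rw [← integral_const_mul]
  congr 1
  funext y
  ring

end OneField

section Top

variable {K K' : Type} [Field K] [NumberField K] [Field K'] [NumberField K'] [Algebra K K']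

/-- Membership upstairs in terms of the place below. -/
theorem mem_over_iff51 (hBU : BelowUniqC51 K K') {T : Finset (HeightOneSpectrum (𝓞 K))}
    {T' : Finset (HeightOneSpectrum (𝓞 K'))} (hT : IsOver305 T T')
    {v : HeightOneSpectrum (𝓞 K)} {w : HeightOneSpectrum (𝓞 K')} (hw : PlaceOver K K' v w) :
    w ∈ T' ↔ v ∈ T := by
  constructor
  · intro h
    obtain ⟨v', hv', hw'⟩ := (hT w).1 h
    rwa [hBU v v' w hw hw']
  · intro h
    exact (hT w).2 ⟨v, h, hw⟩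

/-- **THE NODE `ConvAvgC51` from the one-field node and the small leaves.** -/
theorem convAvgC_of51 (hU' : ConvFamC51 K') (hD : ConvFamC51 K) (hTS : TestSmulC51 K)
    (hEx : LocConvExC51) (hUn : UnitConvC51) (hUR : UnitRegC51) (hRA : RegAC51 K K')
    (hRO : RegOpC51 K K') (hOF : OverFinC51 K K') (hBU : BelowUniqC51 K K')
    (hBE : BelowExC51 K K') (hTC : TotCplxUpC51 K K') (hLA : LevelAtC51 K K') :
    ConvAvgC51 K K' := by
  classical
  intro ℓ Φ B g 𝔫 μc T₀ n n₀ m hctx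
  by_cases h𝔫 : 𝔫 = ⊥
  · exact ⟨1, one_ne_zero, fun t a _ _ H' z' H z hsys => absurd h𝔫 hsys.level_ne⟩
  have h𝔑 : upI (K' := K') 𝔫 ≠ ⊥ := upI_ne_bot51 𝔫 h𝔫
  have hlev := hLA 𝔫 T₀ n m hctx.mem_T₀ hctx.lev_m hctx.lev_n
  obtain ⟨T₀', hT₀'⟩ := hOF T₀
  have hn0 : ∀ w : HeightOneSpectrum (𝓞 K'), w ∉ T₀' → n w = 0 := by
    intro w hw
    obtain ⟨v, hv⟩ := hBE w
    exact hlev.2 v w (fun hv0 => hw ((hT₀' w).2 ⟨v, hv0, hv⟩)) hv
  obtain ⟨cu, hcu, hUp⟩ := hU' (hTC hctx.tc) B.R'.μ hctx.base.frame'.frame.haar μc hctx.haar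
    T₀' n hn0 (upI (K' := K') 𝔫) h𝔑
  obtain ⟨cd, hcd, hDn⟩ := hD hctx.tc B.R.μ hctx.base.frame.frame.haar μc hctx.haar
    T₀ m hlev.1 𝔫 h𝔫
  have hcuC : (cu : ℂ) ≠ 0 := by exact_mod_cast hcu
  have hcdC : (cd : ℂ) ≠ 0 := by exact_mod_cast hcd
  refine ⟨(cd : ℂ) / (cu : ℂ), div_ne_zero hcdC hcuC, ?_⟩
  intro t a ht ha H' z' H z hsys k j φ₁' φ₂' f₁ f₂ hA hB
  obtain ⟨Ω₁, i11, i12, i13, i14, i15, i16, ν₁, i17, T₁, T₁', φ1, Φ1, f1, F1, A1, A2, A3, A4,
    A5, A6, A7, A8, A9⟩ := hA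
  obtain ⟨Ω₂, i21, i22, i23, i24, i25, i26, ν₂, i27, T₂, T₂', φ2, Φ2, f2, F2, B1, B2, B3, B4,
    B5, B6, B7, B8, B9⟩ := hB
  -- the original components of the second pair
  have hB1' : ∀ b : Ω₂, ∃ (φo : ∀ w : HeightOneSpectrum (𝓞 K'), GL (Fin 2) (w.adicCompletion K') → ℂ)
      (fo : ∀ v : HeightOneSpectrum (𝓞 K), GL (Fin 2) (v.adicCompletion K) → ℂ),
      LocB893b B g 𝔫 μc T₀ n n₀ m (T₂ b) φo (Φ2 b) fo (F2 b) ∧
      (∀ v ∈ T₀, v ≠ B.u → f2 b v = fo v ∧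
        ∀ w : HeightOneSpectrum (𝓞 K'), PlaceOver K K' v w →
          φ2 b w = dblFn893 (n₀ w) (finGL305 w g)) ∧
      f2 b B.u = regLoc51 B.u z H k j iwFn893 ∧
      φ2 b (B.o 0) = regLoc51 (B.o 0) z' H' k j iwFn893 ∧
      (∀ i : ℕ, 0 < i → i < B.l → φ2 b (B.o i) = iwFn893) ∧
      ∀ v ∈ T₂ b, v ∉ T₀ → f2 b v = fo v ∧
        ∀ w : HeightOneSpectrum (𝓞 K'), PlaceOver K K' v w → φ2 b w = φo w :=
    fun b => (B1 b).2.2
  choose φo fo hLB hbad hfu hφ0 hφi hout using hB1'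
  have hRA1 := fun a : Ω₁ => hRA ℓ Φ B g 𝔫 μc T₀ n n₀ m hctx (T₁ a) (φ1 a) (Φ1 a) (f1 a) (F1 a)
    (A1 a).1 (A1 a).2.2
  have hRO1 := fun b : Ω₂ => hRO ℓ Φ B g 𝔫 μc T₀ n n₀ m hctx H' z' H z hsys k j (T₂ b) (φ2 b)
    (Φ2 b) (f2 b) (F2 b) (B1 b).1 (B1 b).2.2
  have hsubT₀' : ∀ {T : Finset (HeightOneSpectrum (𝓞 K))}
      {T' : Finset (HeightOneSpectrum (𝓞 K'))}, T₀ ⊆ T → IsOver305 T T' → T₀' ⊆ T' := by
    intro T T' hT hO w hw
    obtain ⟨v, hv, hvw⟩ := (hT₀' w).1 hw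
    exact (hO w).2 ⟨v, hT hv, hvw⟩
  have hu0 : B.u ∈ T₀ := (hctx.mem_T₀ B.u).2 hsys.u_level
  -- the four families
  have famU1 : IsFam51 (upI (K' := K') 𝔫) n T₀' T₁' φ1 Φ1 :=
    { sub := fun a => hsubT₀' (A1 a).1 (A1 a).2.1
      test := A2
      cont := A4
      supp := A6
      reg := fun a w hw => by
        obtain ⟨v, hv, hvw⟩ := ((A1 a).2.1 w).1 hw
        exact ((hRA1 a).1 v hv).1 w hvw
      arch := fun a w => (hRA1 a).2.1 w }
  have famU2 : IsFam51 (upI (K' := K') 𝔫) n T₀' T₂' φ2 Φ2 :=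
    { sub := fun b => hsubT₀' (B1 b).1 (B1 b).2.1
      test := B2
      cont := B4
      supp := B6
      reg := fun b w hw => by
        obtain ⟨v, hv, hvw⟩ := ((B1 b).2.1 w).1 hw
        exact ((hRO1 b).1 v hv).1 w hvw
      arch := fun b w => (hRO1 b).2.1 w }
  have famD1 : IsFam51 𝔫 m T₀ T₁ f1 F1 :=
    { sub := fun a => (A1 a).1
      test := fun a => by
        have := A3 a
        simp only [one_mul] at this
        exact this
      cont := by
        have := A5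
        simp only [one_mul] at this
        exact this
      supp := A7
      reg := fun a v hv => ((hRA1 a).1 v hv).2
      arch := fun a v => (hRA1 a).2.2 v }
  have famD2 : IsFam51 𝔫 m T₀ T₂ f2 F2 :=
    { sub := fun b => (B1 b).1
      test := fun b => by
        have := hTS 𝔫 _ a⁻¹ (B3 b)
        simp only [inv_mul_cancel_left₀ ha] at this
        exact this
      cont := by
        have := (continuous_const (y := a⁻¹)).mul B5
        exact this.congr fun p => inv_mul_cancel_left₀ ha _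
      supp := B7
      reg := fun b v hv => ((hRO1 b).1 v hv).2
      arch := fun b v => (hRO1 b).2.2 v }
  -- regularity of the extended components outside the level
  have hextU : ∀ {Ω : Type} [TopologicalSpace Ω] (T : Ω → Finset (HeightOneSpectrum (𝓞 K')))
      (φ : Ω → ∀ w : HeightOneSpectrum (𝓞 K'), GL (Fin 2) (w.adicCompletion K') → ℂ)
      (Φ' : Ω → InfinitePlace K' → GL (Fin 2) ℂ → ℂ),
      IsFam51 (upI (K' := K') 𝔫) n T₀' T φ Φ' → ∀ (a : Ω) (w : HeightOneSpectrum (𝓞 K')),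
      w ∉ T₀' → T6.IsBiInv (T6.InU 0) (ext51 (T a) (φ a) w) ∧
        T6.HasFinSupp (T6.InU 0) (ext51 (T a) (φ a) w) := by
    intro Ω _ T φ Φ' hfam a w hw
    unfold ext51
    split_ifs with h
    · have := hfam.reg a w h
      rwa [hn0 w hw] at this
    · exact hUR _ 0
  have hextD : ∀ {Ω : Type} [TopologicalSpace Ω] (T : Ω → Finset (HeightOneSpectrum (𝓞 K)))
      (φ : Ω → ∀ w : HeightOneSpectrum (𝓞 K), GL (Fin 2) (w.adicCompletion K) → ℂ)
      (Φ' : Ω → InfinitePlace K → GL (Fin 2) ℂ → ℂ),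
      IsFam51 𝔫 m T₀ T φ Φ' → ∀ (a : Ω) (w : HeightOneSpectrum (𝓞 K)),
      w ∉ T₀ → T6.IsBiInv (T6.InU 0) (ext51 (T a) (φ a) w) ∧
        T6.HasFinSupp (T6.InU 0) (ext51 (T a) (φ a) w) := by
    intro Ω _ T φ Φ' hfam a w hw
    unfold ext51
    split_ifs with h
    · have := hfam.reg a w h
      rwa [hlev.1 w hw] at this
    · exact hUR _ 0
  -- the components of the products
  obtain ⟨χu, hχu1, hχu2⟩ : ∃ χu : Ω₁ × Ω₂ → ∀ w : HeightOneSpectrum (𝓞 K'),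
      GL (Fin 2) (w.adicCompletion K') → ℂ,
      (∀ (p : Ω₁ × Ω₂) (w : HeightOneSpectrum (𝓞 K')), w ∈ T₀' → χu p w = φ2 p.2 w) ∧
      ∀ (p : Ω₁ × Ω₂) (w : HeightOneSpectrum (𝓞 K')), w ∉ T₀' →
        T6.IsConv (T6.InU 0) (ext51 (T₁' p.1) (φ1 p.1) w) (ext51 (T₂' p.2) (φ2 p.2) w)
          (χu p w) := by
    have hex : ∀ (p : Ω₁ × Ω₂) (w : HeightOneSpectrum (𝓞 K')), w ∉ T₀' →
        ∃ χ, T6.IsConv (T6.InU 0) (ext51 (T₁' p.1) (φ1 p.1) w) (ext51 (T₂' p.2) (φ2 p.2) w) χ :=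
      fun p w hw => hEx _ 0 _ _ (hextU T₁' φ1 Φ1 famU1 p.1 w hw).1
        (hextU T₁' φ1 Φ1 famU1 p.1 w hw).2 (hextU T₂' φ2 Φ2 famU2 p.2 w hw).1
        (hextU T₂' φ2 Φ2 famU2 p.2 w hw).2
    refine ⟨fun p w => if hw : w ∈ T₀' then φ2 p.2 w else (hex p w hw).choose, ?_, ?_⟩
    · intro p w hw
      simp only [dif_pos hw]
    · intro p w hw
      simp only [dif_neg hw]
      exact (hex p w hw).choose_spec
  obtain ⟨χd0, hχd01, hχd02⟩ : ∃ χd0 : Ω₁ × Ω₂ → ∀ v : HeightOneSpectrum (𝓞 K),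
      GL (Fin 2) (v.adicCompletion K) → ℂ,
      (∀ (p : Ω₁ × Ω₂) (v : HeightOneSpectrum (𝓞 K)), v ∈ T₀ → χd0 p v = f2 p.2 v) ∧
      ∀ (p : Ω₁ × Ω₂) (v : HeightOneSpectrum (𝓞 K)), v ∉ T₀ →
        T6.IsConv (T6.InU 0) (ext51 (T₁ p.1) (f1 p.1) v) (ext51 (T₂ p.2) (f2 p.2) v)
          (χd0 p v) := by
    have hex : ∀ (p : Ω₁ × Ω₂) (v : HeightOneSpectrum (𝓞 K)), v ∉ T₀ →
        ∃ χ, T6.IsConv (T6.InU 0) (ext51 (T₁ p.1) (f1 p.1) v) (ext51 (T₂ p.2) (f2 p.2) v) χ :=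
      fun p v hv => hEx _ 0 _ _ (hextD T₁ f1 F1 famD1 p.1 v hv).1
        (hextD T₁ f1 F1 famD1 p.1 v hv).2 (hextD T₂ f2 F2 famD2 p.2 v hv).1
        (hextD T₂ f2 F2 famD2 p.2 v hv).2
    refine ⟨fun p v => if hv : v ∈ T₀ then f2 p.2 v else (hex p v hv).choose, ?_, ?_⟩
    · intro p v hv
      simp only [dif_pos hv]
    · intro p v hv
      simp only [dif_neg hv]
      exact (hex p v hv).choose_spec
  obtain ⟨χd, hχd1, hχd2⟩ : ∃ χd : Ω₁ × Ω₂ → ∀ v : HeightOneSpectrum (𝓞 K),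
      GL (Fin 2) (v.adicCompletion K) → ℂ,
      (∀ (p : Ω₁ × Ω₂) (x : GL (Fin 2) (B.u.adicCompletion K)),
        χd p B.u x = t * χd0 p B.u x) ∧
      ∀ (p : Ω₁ × Ω₂) (v : HeightOneSpectrum (𝓞 K)), v ≠ B.u → χd p v = χd0 p v := by
    refine ⟨fun p v => if v = B.u then (fun x => t * χd0 p v x) else χd0 p v, ?_, ?_⟩
    · intro p x
      simp only [if_true]
    · intro p v hv
      simp only [if_neg hv]
  -- the local convolutions at the places of the products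
  have hconvU : ∀ (p : Ω₁ × Ω₂) (w : HeightOneSpectrum (𝓞 K')), w ∈ T₁' p.1 ∪ T₂' p.2 →
      T6.IsConv (T6.InU (n w)) (ext51 (T₁' p.1) (φ1 p.1) w) (ext51 (T₂' p.2) (φ2 p.2) w)
        (χu p w) := by
    intro p w _
    by_cases hw : w ∈ T₀'
    · obtain ⟨v, hv, hvw⟩ := (hT₀' w).1 hw
      have e1 : ext51 (T₁' p.1) (φ1 p.1) w = unitFn893 (n w) := by
        unfold ext51
        rw [if_pos (famU1.sub p.1 hw)]
        exact (A1 p.1).2.2.2.1 v hv w hvw
      have e2 : ext51 (T₂' p.2) (φ2 p.2) w = φ2 p.2 w := by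
        unfold ext51
        rw [if_pos (famU2.sub p.2 hw)]
      rw [e1, e2, hχu1 p w hw]
      exact hUn _ (n w) _ (famU2.reg p.2 w (famU2.sub p.2 hw)).1
    · rw [hn0 w hw]
      exact hχu2 p w hw
  have hconvD : ∀ (p : Ω₁ × Ω₂) (v : HeightOneSpectrum (𝓞 K)), v ∈ T₁ p.1 ∪ T₂ p.2 →
      T6.IsConv (T6.InU (m v)) (ext51 (T₁ p.1) (f1 p.1) v) (ext51 (T₂ p.2) (f2 p.2) v)
        (χd0 p v) := by
    intro p v _
    by_cases hv : v ∈ T₀
    · have e1 : ext51 (T₁ p.1) (f1 p.1) v = unitFn893 (m v) := by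
        unfold ext51
        rw [if_pos (famD1.sub p.1 hv)]
        exact (A1 p.1).2.2.1 v hv
      have e2 : ext51 (T₂ p.2) (f2 p.2) v = f2 p.2 v := by
        unfold ext51
        rw [if_pos (famD2.sub p.2 hv)]
      rw [e1, e2, hχd01 p v hv]
      exact hUn _ (m v) _ (famD2.reg p.2 v (famD2.sub p.2 hv)).1
    · rw [hlev.1 v hv]
      exact hχd02 p v hv
  obtain ⟨testU, contU, suppU, intU⟩ :=
    hUp Ω₁ ν₁ Ω₂ ν₂ T₁' φ1 Φ1 T₂' φ2 Φ2 χu famU1 famU2 hconvU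
  obtain ⟨testD, contD, suppD, intD⟩ :=
    hDn Ω₁ ν₁ Ω₂ ν₂ T₁ f1 F1 T₂ f2 F2 χd0 famD1 famD2 hconvD
  have hscale : ∀ (p : Ω₁ × Ω₂) (h : G K),
      pure305 (T₁ p.1 ∪ T₂ p.2) (χd p)
          (fun v => @T6.convInt _ _ (borel _) μc (F1 p.1 v) (F2 p.2 v)) h
        = t * pure305 (T₁ p.1 ∪ T₂ p.2) (χd0 p)
          (fun v => @T6.convInt _ _ (borel _) μc (F1 p.1 v) (F2 p.2 v)) h :=
    fun p h => pure305_scale51 _ (χd0 p) (χd p) _ B.u
      (Finset.mem_union_left _ ((A1 p.1).1 hu0)) t (hχd1 p) (hχd2 p) h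
  have hCt : ∀ x : ℂ, a * ((cd : ℂ) / (cu : ℂ)) / t * (t * x)
      = a * ((cd : ℂ) / (cu : ℂ)) * x := by
    intro x
    field_simp
  refine ⟨Ω₁ × Ω₂, inferInstance, inferInstance, inferInstance, inferInstance, inferInstance,
    inferInstance, cu • (ν₁.prod ν₂), inferInstance,
    fun p => T₁ p.1 ∪ T₂ p.2, fun p => T₁' p.1 ∪ T₂' p.2, χu,
    fun p w => @T6.convInt _ _ (borel _) μc (Φ1 p.1 w) (Φ2 p.2 w), χd,
    fun p v => @T6.convInt _ _ (borel _) μc (F1 p.1 v) (F2 p.2 v), ?_, ?_, ?_, ?_, ?_, ?_, ?_,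
    ?_, ?_⟩
  · -- the local shape
    intro p
    refine ⟨fun v hv => Finset.mem_union_left _ ((A1 p.1).1 hv), ?_, ?_⟩
    · intro w
      rw [Finset.mem_union, (A1 p.1).2.1 w, (B1 p.2).2.1 w]
      constructor
      · rintro (⟨v, hv, hw⟩ | ⟨v, hv, hw⟩)
        · exact ⟨v, Finset.mem_union_left _ hv, hw⟩
        · exact ⟨v, Finset.mem_union_right _ hv, hw⟩
      · rintro ⟨v, hv, hw⟩
        rcases Finset.mem_union.1 hv with h | h
        · exact Or.inl ⟨v, h, hw⟩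
        · exact Or.inr ⟨v, h, hw⟩
    · refine ⟨T₁ p.1, T₂ p.2, φ1 p.1, Φ1 p.1, f1 p.1, F1 p.1, φo p.2, Φ2 p.2, fo p.2, F2 p.2,
        rfl, (A1 p.1).1, (B1 p.2).1, (A1 p.1).2.2, hLB p.2, ?_, ?_, ?_, ?_, ?_, ?_, ?_⟩
      · intro v hv hvu
        refine ⟨?_, fun w hw => ?_⟩
        · rw [hχd2 p v hvu, hχd01 p v hv]
          exact (hbad p.2 v hv hvu).1
        · rw [hχu1 p w ((hT₀' w).2 ⟨v, hv, hw⟩)]
          exact (hbad p.2 v hv hvu).2 w hw
      · funext x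
        rw [hχd1 p x, hχd01 p B.u hu0, hfu p.2]
      · rw [hχu1 p (B.o 0) ((hT₀' _).2 ⟨B.u, hu0, hctx.base.orbit_over 0⟩)]
        exact hφ0 p.2
      · intro i hi hil
        rw [hχu1 p (B.o i) ((hT₀' _).2 ⟨B.u, hu0, hctx.base.orbit_over i⟩)]
        exact hφi p.2 i hi hil
      · intro v hv hv0
        have hvu : v ≠ B.u := fun e => hv0 (e ▸ hu0)
        refine ⟨?_, fun w hw => ?_⟩
        · have h1 := hχd02 p v hv0
          rw [hχd2 p v hvu]
          have e2 : ext51 (T₂ p.2) (f2 p.2) v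
              = if v ∈ T₂ p.2 then fo p.2 v else unitFn893 0 := by
            unfold ext51
            by_cases h : v ∈ T₂ p.2
            · rw [if_pos h, if_pos h]
              exact (hout p.2 v h hv0).1
            · rw [if_neg h, if_neg h]
          rw [e2] at h1
          exact h1
        · have hw0 : w ∉ T₀' := fun h => hv0 ((mem_over_iff51 hBU hT₀' hw).1 h)
          have h1 := hχu2 p w hw0
          have e1 : ext51 (T₁' p.1) (φ1 p.1) w
              = if v ∈ T₁ p.1 then φ1 p.1 w else unitFn893 0 := by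
            unfold ext51
            by_cases h : v ∈ T₁ p.1
            · rw [if_pos h, if_pos ((mem_over_iff51 hBU (A1 p.1).2.1 hw).2 h)]
            · rw [if_neg h, if_neg (fun h' => h ((mem_over_iff51 hBU (A1 p.1).2.1 hw).1 h'))]
          have e2 : ext51 (T₂' p.2) (φ2 p.2) w
              = if v ∈ T₂ p.2 then φo p.2 w else unitFn893 0 := by
            unfold ext51
            by_cases h : v ∈ T₂ p.2
            · rw [if_pos h, if_pos ((mem_over_iff51 hBU (B1 p.2).2.1 hw).2 h)]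
              exact (hout p.2 v h hv0).2 w hw
            · rw [if_neg h, if_neg (fun h' => h ((mem_over_iff51 hBU (B1 p.2).2.1 hw).1 h'))]
          rw [e1, e2] at h1
          exact h1
      · intro w
        rfl
      · intro v
        rfl
  · exact testU
  · intro p
    have := hTS 𝔫 _ (a * ((cd : ℂ) / (cu : ℂ))) (testD p)
    have e : (fun h : G K => a * ((cd : ℂ) / (cu : ℂ)) / t
          * pure305 (T₁ p.1 ∪ T₂ p.2) (χd p)
            (fun v => @T6.convInt _ _ (borel _) μc (F1 p.1 v) (F2 p.2 v)) h)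
        = fun h : G K => a * ((cd : ℂ) / (cu : ℂ))
          * pure305 (T₁ p.1 ∪ T₂ p.2) (χd0 p)
            (fun v => @T6.convInt _ _ (borel _) μc (F1 p.1 v) (F2 p.2 v)) h := by
      funext h
      rw [hscale p h, hCt]
    rw [e]
    exact this
  · exact contU
  · have := (continuous_const (y := a * ((cd : ℂ) / (cu : ℂ)))).mul contD
    refine this.congr fun q => ?_
    rw [hscale q.1 q.2, hCt]
    rfl
  · exact suppU
  · obtain ⟨C, hC, hC'⟩ := suppD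
    refine ⟨C, hC, fun p h hne => hC' p h fun h0 => hne ?_⟩
    rw [hscale p h, h0, mul_zero]
  · intro h
    have e1 : φ₁' = fun x => ∫ a, pure305 (T₁' a) (φ1 a) (Φ1 a) x ∂ν₁ := funext A8
    have e2 : φ₂' = fun x => ∫ b, pure305 (T₂' b) (φ2 b) (Φ2 b) x ∂ν₂ := funext B8
    rw [e1, e2]
    exact intU h
  · intro h
    have e1 : f₁ = fun x => ∫ a, pure305 (T₁ a) (f1 a) (F1 a) x ∂ν₁ := by
      funext x
      rw [A9 x]
      simp only [one_mul]
    have e2 : f₂ = fun x => a * ∫ b, pure305 (T₂ b) (f2 b) (F2 b) x ∂ν₂ := by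
      funext x
      rw [B9 x, integral_const_mul]
    rw [e1, e2, conv_const_mul51, intD h, integral_smul_nnreal_measure,
      integral_smul_nnreal_measure]
    have e3 : (fun p : Ω₁ × Ω₂ => a * ((cd : ℂ) / (cu : ℂ)) / t
          * pure305 (T₁ p.1 ∪ T₂ p.2) (χd p)
            (fun v => @T6.convInt _ _ (borel _) μc (F1 p.1 v) (F2 p.2 v)) h)
        = fun p : Ω₁ × Ω₂ => a * ((cd : ℂ) / (cu : ℂ))
          * pure305 (T₁ p.1 ∪ T₂ p.2) (χd0 p)
            (fun v => @T6.convInt _ _ (borel _) μc (F1 p.1 v) (F2 p.2 v)) h := by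
      funext p
      rw [hscale p h, hCt]
    rw [e3, integral_const_mul, NNReal.smul_def, NNReal.smul_def, Complex.real_smul,
      Complex.real_smul]
    have hcu' : ((cu : ℝ) : ℂ) ≠ 0 := by exact_mod_cast hcu
    field_simp

end Top

end Fermat.Agent.LT.T7.P51

end
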